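import Fermat.Agent.S24.H624.Complete
import Fermat.Agent.S24.Deg.H457_Bound

/-!
# The field of modular functions for a finite-index subgroup has degree `≤` index over `ℂ(j)`
-/

set_option autoImplicit false

namespace Fermat.Agent.S24.H624

open UpperHalfPlane Complex Filter
open scoped Manifold Topology MatrixGroups Real

local notation "Δ" => ModularForm.discriminant

instance instIsScalarTowerMerH : IsScalarTower ℂ holoRing MerH :=
  IsScalarTower.of_algebraMap_eq fun _ => rfl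

/-- The `j`-function as an element of `MerH`. -/
noncomputable def jM : MerH := algebraMap holoRing MerH jH

/-- The subfield `ℂ(j)` of `MerH`. -/
noncomputable def ratJ : IntermediateField ℂ MerH := IntermediateField.adjoin ℂ {jM}

theorem algebraMap_aeval_jH (P : Polynomial ℂ) :
    algebraMap holoRing MerH (Polynomial.aeval jH P) = Polynomial.aeval jM P :=
  (Polynomial.aeval_algebraMap_apply MerH jH P).symm

theorem aeval_jM_mem (P : Polynomial ℂ) : Polynomial.aeval jM P ∈ ratJ := by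
  have h1 : Polynomial.aeval jM P ∈ Algebra.adjoin ℂ ({jM} : Set MerH) := by
    rw [Algebra.adjoin_singleton_eq_range_aeval]
    exact ⟨P, rfl⟩
  exact IntermediateField.algebra_adjoin_le_adjoin ℂ _ h1

theorem aeval_jM_ne_zero {Q : Polynomial ℂ} (hQ : Q ≠ 0) : Polynomial.aeval jM Q ≠ 0 := by
  rw [← algebraMap_aeval_jH]
  exact algebraMap_MerH_ne_zero (aeval_jH_ne_zero hQ)

theorem mem_ratJ_of_rel {c : MerH} {P Q : Polynomial ℂ} (hQ : Q ≠ 0)
    (h : c * algebraMap holoRing MerH (Polynomial.aeval jH Q)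
      = algebraMap holoRing MerH (Polynomial.aeval jH P)) : c ∈ ratJ := by
  rw [algebraMap_aeval_jH, algebraMap_aeval_jH] at h
  have hc : c = Polynomial.aeval jM P / Polynomial.aeval jM Q := by
    rw [eq_div_iff (aeval_jM_ne_zero hQ), h]
  rw [hc]
  exact div_mem (aeval_jM_mem P) (aeval_jM_mem Q)

section Integral

variable {Γ : Subgroup SL(2, ℤ)} [Γ.FiniteIndex]

/-- **Completeness, field form.** A `Γ`-invariant function meromorphic at all cusps is
algebraic over `ℂ(j)` of degree at most the index of `Γ`. -/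
theorem isIntegral_of_invariant {F : MerH} (hinv : ∀ γ ∈ Γ, γ • F = F)
    (hcusp : IsMeroAtCusps F) :
    IsIntegral ratJ F ∧ (minpoly ratJ F).natDegree ≤ Γ.index := by
  obtain ⟨Φ, hmonic, hdeg, heval, hcoeff⟩ := exists_monic_of_invariant (Γ := Γ) hinv hcusp
  have hlift : Φ ∈ Polynomial.lifts (algebraMap ratJ MerH) := by
    rw [Polynomial.lifts_iff_coeff_lifts]
    intro i
    obtain ⟨P, Q, hQ, h⟩ := hcoeff i
    exact ⟨⟨Φ.coeff i, mem_ratJ_of_rel hQ h⟩, rfl⟩
  obtain ⟨q, hq, hqdeg, hqmonic⟩ := Polynomial.lifts_and_natDegree_eq_and_monic hlift hmonic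
  have hroot : Polynomial.aeval F q = 0 := by
    rw [Polynomial.aeval_def, Polynomial.eval₂_eq_eval_map, hq]
    exact heval
  have hint : IsIntegral ratJ F := ⟨q, hqmonic, by rwa [Polynomial.aeval_def] at hroot⟩
  refine ⟨hint, ?_⟩
  have hdvd := minpoly.dvd ratJ F hroot
  have := Polynomial.natDegree_le_of_dvd hdvd hqmonic.ne_zero
  rw [hqdeg, hdeg] at this
  exact this

end Integral

end Fermat.Agent.S24.H624

namespace Fermat.Agent.S24.H624

open UpperHalfPlane Complex Filter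
open scoped Manifold Topology MatrixGroups Real

local notation "Δ" => ModularForm.discriminant

/-! ### polynomials in `j` and their inverses are meromorphic at the cusps -/

theorem exists_inv_discriminant_bound :
    ∃ C A : ℝ, 0 ≤ C ∧ ∀ τ : ℍ, A ≤ τ.im → Real.exp (-(2 * π * τ.im)) ≤ C * ‖Δ τ‖ := by
  have h := ModularForm.exp_isBigO_discriminant
  rw [Asymptotics.isBigO_iff'] at h
  obtain ⟨C, hC, hev⟩ := h
  rw [Filter.Eventually, UpperHalfPlane.atImInfty_mem] at hev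
  obtain ⟨A, hA⟩ := hev
  refine ⟨C, A, hC.le, fun τ hτ => ?_⟩
  have := hA τ hτ
  simp only [Set.mem_ofPred_eq, Real.norm_eq_abs, abs_of_pos (Real.exp_pos _)] at this
  convert this using 2
  ring

theorem isMeroAtInfty_aeval (P : Polynomial ℂ) :
    IsMeroAtInfty (algebraMap holoRing MerH (Polynomial.aeval jH P)) := by
  set d := P.natDegree with hd
  have hbd := isBoundedAtImInfty_eval_jFun_mul P d le_rfl
  rw [IsBoundedAtImInfty, BoundedAtFilter, Asymptotics.isBigO_iff'] at hbd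
  obtain ⟨M, hM, hev⟩ := hbd
  rw [Filter.Eventually, UpperHalfPlane.atImInfty_mem] at hev
  obtain ⟨A₁, hA₁⟩ := hev
  obtain ⟨C, A₂, hC, hA₂⟩ := exists_inv_discriminant_bound
  refine IsMeroAtInfty.of_holo_bounded (m := d) (Y := max A₁ A₂) (C := M * C ^ d) fun τ hτ => ?_
  have h1 := hA₁ τ (le_trans (le_max_left _ _) hτ)
  have h2 := hA₂ τ (le_trans (le_max_right _ _) hτ)
  simp only [Set.mem_ofPred_eq, Pi.one_apply, norm_one, mul_one, norm_mul, norm_pow] at h1
  rw [aeval_jH_apply]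
  have hΔ : 0 < ‖Δ τ‖ := norm_pos_iff.mpr (ModularForm.discriminant_ne_zero τ)
  have hE : 0 < Real.exp (2 * π * d * τ.im) := Real.exp_pos _
  -- 1 ≤ (C ‖Δ‖ e^{2πy})
  have h3 : 1 ≤ C * ‖Δ τ‖ * Real.exp (2 * π * τ.im) := by
    have : Real.exp (-(2 * π * τ.im)) * Real.exp (2 * π * τ.im) = 1 := by
      rw [← Real.exp_add]
      simp
    calc (1 : ℝ) = Real.exp (-(2 * π * τ.im)) * Real.exp (2 * π * τ.im) := this.symm
      _ ≤ C * ‖Δ τ‖ * Real.exp (2 * π * τ.im) :=
        mul_le_mul_of_nonneg_right h2 (Real.exp_pos _).le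
  have h4 : 1 ≤ (C * ‖Δ τ‖ * Real.exp (2 * π * τ.im)) ^ d := one_le_pow₀ h3
  have h5 : (C * ‖Δ τ‖ * Real.exp (2 * π * τ.im)) ^ d
      = C ^ d * ‖Δ τ‖ ^ d * Real.exp (2 * π * d * τ.im) := by
    rw [mul_pow, mul_pow, ← Real.exp_nat_mul]
    congr 2
    ring
  rw [h5] at h4
  have hx : 0 ≤ ‖Polynomial.eval (H108.jFun τ) P‖ := norm_nonneg _
  calc ‖Polynomial.eval (H108.jFun τ) P‖
      ≤ ‖Polynomial.eval (H108.jFun τ) P‖ * (C ^ d * ‖Δ τ‖ ^ d * Real.exp (2 * π * d * τ.im)) :=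
        le_mul_of_one_le_right hx h4
    _ = (‖Polynomial.eval (H108.jFun τ) P‖ * ‖Δ τ‖ ^ d) * (C ^ d * Real.exp (2 * π * d * τ.im)) := by
        ring
    _ ≤ M * (C ^ d * Real.exp (2 * π * d * τ.im)) :=
        mul_le_mul_of_nonneg_right h1 (mul_nonneg (pow_nonneg hC d) hE.le)
    _ = M * C ^ d * Real.exp (2 * π * d * τ.im) := by ring

theorem tendsto_eval_jFun_mul (Q : Polynomial ℂ) :
    Tendsto (fun τ : ℍ => Q.eval (H108.jFun τ) * Δ τ ^ Q.natDegree) atImInfty
      (𝓝 Q.leadingCoeff) := by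
  set d := Q.natDegree with hd
  have hJ : Tendsto (fun τ : ℍ => H108.jFun τ * Δ τ) atImInfty (𝓝 1) := by
    have h := (H108.tendsto_E₄_atImInfty).pow 3
    rw [one_pow] at h
    refine h.congr fun τ => ?_
    rw [H108.jFun_def, div_mul_cancel₀ _ (ModularForm.discriminant_ne_zero τ)]
  have hD : Tendsto (fun τ : ℍ => Δ τ) atImInfty (𝓝 0) := H108.tendsto_discriminant_atImInfty
  have key : (fun τ : ℍ => Q.eval (H108.jFun τ) * Δ τ ^ d)
      = fun τ : ℍ => ∑ i ∈ Finset.range (d + 1),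
          Q.coeff i * ((H108.jFun τ * Δ τ) ^ i * Δ τ ^ (d - i)) := by
    funext τ
    rw [Polynomial.eval_eq_sum_range' (Nat.lt_succ_of_le le_rfl), Finset.sum_mul]
    refine Finset.sum_congr rfl fun i hi => ?_
    have hi' : i ≤ d := Nat.lt_succ_iff.mp (Finset.mem_range.mp hi)
    rw [mul_pow, mul_assoc, mul_assoc, ← pow_add, Nat.add_sub_cancel' hi']
  rw [key]
  have hlim : Q.leadingCoeff = ∑ i ∈ Finset.range (d + 1),
      Q.coeff i * ((1 : ℂ) ^ i * (0 : ℂ) ^ (d - i)) := by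
    rw [Finset.sum_eq_single d]
    · rw [Nat.sub_self, pow_zero, one_pow, mul_one, mul_one, hd, Polynomial.coeff_natDegree]
    · intro i hi hne
      have hi' : i ≤ d := Nat.lt_succ_iff.mp (Finset.mem_range.mp hi)
      have : d - i ≠ 0 := by omega
      simp [this]
    · intro h
      exfalso
      exact h (Finset.mem_range.mpr (Nat.lt_succ_self d))
  rw [hlim]
  refine tendsto_finsetSum _ fun i _ => ?_
  exact tendsto_const_nhds.mul ((hJ.pow i).mul (hD.pow (d - i)))

theorem isMeroAtInfty_inv_aeval {Q : Polynomial ℂ} (hQ : Q ≠ 0) :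
    IsMeroAtInfty (algebraMap holoRing MerH (Polynomial.aeval jH Q))⁻¹ := by
  set d := Q.natDegree with hd
  have hc : Q.leadingCoeff ≠ 0 := Polynomial.leadingCoeff_ne_zero.mpr hQ
  have hcpos : 0 < ‖Q.leadingCoeff‖ := norm_pos_iff.mpr hc
  have h1 := tendsto_eval_jFun_mul Q
  have h2 : ∀ᶠ τ : ℍ in atImInfty,
      ‖Q.leadingCoeff‖ / 2 < ‖Q.eval (H108.jFun τ) * Δ τ ^ d‖ := by
    have := (h1.norm).eventually (lt_mem_nhds (half_lt_self hcpos))
    exact this
  have h3 : ∀ᶠ τ : ℍ in atImInfty, ‖Δ τ‖ < 1 := by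
    have := (H108.tendsto_discriminant_atImInfty.norm).eventually
      (gt_mem_nhds (by rw [norm_zero]; exact one_pos))
    exact this
  have h4 := h2.and h3
  rw [Filter.Eventually, UpperHalfPlane.atImInfty_mem] at h4
  obtain ⟨A, hA⟩ := h4
  have hQh0 := aeval_jH_ne_zero hQ
  refine ⟨1, Polynomial.aeval jH Q, 0, A, 2 / ‖Q.leadingCoeff‖, ?_, fun τ hτ => ?_⟩
  · rw [map_one, inv_mul_cancel₀ (algebraMap_MerH_ne_zero hQh0)]
  · obtain ⟨k1, k2⟩ := hA τ hτ
    rw [aeval_jH_apply]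
    have hne : Q.eval (H108.jFun τ) ≠ 0 := by
      intro h0
      rw [h0, zero_mul, norm_zero] at k1
      linarith
    refine ⟨hne, ?_⟩
    have : ((1 : holoRing) : ℍ → ℂ) τ = 1 := rfl
    rw [this, norm_div, norm_one]
    simp only [Nat.cast_zero, mul_zero, zero_mul, Real.exp_zero, mul_one]
    rw [norm_mul, norm_pow] at k1
    have hpow : ‖Δ τ‖ ^ d ≤ 1 := pow_le_one₀ (norm_nonneg _) k2.le
    have hQpos : 0 < ‖Q.eval (H108.jFun τ)‖ := norm_pos_iff.mpr hne
    have k3 : ‖Q.leadingCoeff‖ / 2 < ‖Q.eval (H108.jFun τ)‖ := by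
      calc ‖Q.leadingCoeff‖ / 2 < ‖Q.eval (H108.jFun τ)‖ * ‖Δ τ‖ ^ d := k1
        _ ≤ ‖Q.eval (H108.jFun τ)‖ * 1 := mul_le_mul_of_nonneg_left hpow hQpos.le
        _ = _ := mul_one _
    rw [div_le_div_iff₀ hQpos hcpos]
    linarith

theorem exists_aeval_of_mem_ratJ {c : MerH} (hc : c ∈ ratJ) :
    ∃ P Q : Polynomial ℂ, Q ≠ 0 ∧ c = Polynomial.aeval jM P / Polynomial.aeval jM Q := by
  obtain ⟨r, s, h⟩ := (IntermediateField.mem_adjoin_simple_iff ℂ c).mp hc
  by_cases hs : s = 0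
  · subst hs
    refine ⟨0, 1, one_ne_zero, ?_⟩
    rw [h]
    simp
  · exact ⟨r, s, hs, h⟩

theorem smul_aeval_jM (γ : SL(2, ℤ)) (P : Polynomial ℂ) :
    γ • Polynomial.aeval jM P = Polynomial.aeval jM P := by
  rw [← algebraMap_aeval_jH, smul_algebraMap_MerH, smul_aeval_jH]

theorem smul_of_mem_ratJ (γ : SL(2, ℤ)) {c : MerH} (hc : c ∈ ratJ) : γ • c = c := by
  obtain ⟨P, Q, -, rfl⟩ := exists_aeval_of_mem_ratJ hc
  rw [div_eq_mul_inv, smul_mul', smul_inv'', smul_aeval_jM, smul_aeval_jM]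

theorem isMeroAtCusps_of_mem_ratJ {c : MerH} (hc : c ∈ ratJ) : IsMeroAtCusps c := by
  refine IsMeroAtCusps.of_invariant (fun γ => smul_of_mem_ratJ γ hc) ?_
  obtain ⟨P, Q, hQ, rfl⟩ := exists_aeval_of_mem_ratJ hc
  rw [div_eq_mul_inv, ← algebraMap_aeval_jH, ← algebraMap_aeval_jH]
  exact (isMeroAtInfty_aeval P).mul (isMeroAtInfty_inv_aeval hQ)

/-! ### the field of modular functions -/

section ModFun

variable (Γ : Subgroup SL(2, ℤ)) [Γ.FiniteIndex]

/-- The `ℂ(j)`-algebra of `Γ`-invariant functions meromorphic at all cusps. -/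
noncomputable def modFunAlg : Subalgebra ratJ MerH where
  carrier := {F | (∀ γ ∈ Γ, γ • F = F) ∧ IsMeroAtCusps F}
  mul_mem' := by
    rintro F G ⟨hF, hF'⟩ ⟨hG, hG'⟩
    exact ⟨fun γ hγ => by rw [smul_mul', hF γ hγ, hG γ hγ],
      meroCusps.mul_mem hF' hG'⟩
  add_mem' := by
    rintro F G ⟨hF, hF'⟩ ⟨hG, hG'⟩
    exact ⟨fun γ hγ => by rw [smul_add, hF γ hγ, hG γ hγ],
      meroCusps.add_mem hF' hG'⟩
  algebraMap_mem' := by
    intro c
    exact ⟨fun γ _ => smul_of_mem_ratJ γ c.2, isMeroAtCusps_of_mem_ratJ c.2⟩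

/-- The field of modular functions for `Γ`, as an intermediate field of `MerH / ℂ(j)`. -/
noncomputable def modFunField : IntermediateField ratJ MerH :=
  (modFunAlg Γ).toIntermediateField fun x hx =>
    Subalgebra.inv_mem_of_algebraic (modFunAlg Γ) (x := ⟨x, hx⟩)
      (isIntegral_of_invariant (Γ := Γ) hx.1 hx.2).1.isAlgebraic

variable {Γ}

theorem mem_modFunField {F : MerH} :
    F ∈ modFunField Γ ↔ (∀ γ ∈ Γ, γ • F = F) ∧ IsMeroAtCusps F := Iff.rfl

variable (Γ)

/-- **Completeness.** The field of modular functions for `Γ` is finite over `ℂ(j)`, of degree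
at most the index of `Γ` in `SL(2, ℤ)`. -/
theorem finrank_modFunField_le :
    FiniteDimensional ratJ (modFunField Γ) ∧ Module.finrank ratJ (modFunField Γ) ≤ Γ.index := by
  refine Deg457.finiteDimensional_and_finrank_le_of_forall_natDegree_minpoly_le Γ.index
    fun x => ?_
  obtain ⟨h1, h2⟩ := isIntegral_of_invariant (Γ := Γ) x.2.1 x.2.2
  have hinj : Function.Injective (algebraMap (modFunField Γ) MerH) :=
    (algebraMap (modFunField Γ) MerH).injective
  have hmin : minpoly ratJ (x : MerH) = minpoly ratJ x :=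
    minpoly.algebraMap_eq hinj x
  refine ⟨?_, ?_⟩
  · exact (isIntegral_algebraMap_iff hinj).mp h1
  · rw [← hmin]
    exact h2

end ModFun

end Fermat.Agent.S24.H624
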