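import Fermat.Agent.S24.H624.Poles

/-!
# Functions invariant under a finite-index subgroup are algebraic over `ℂ(j)`

`exists_monic_of_invariant`: if `Γ ≤ SL(2, ℤ)` has finite index and `F ∈ MerH` is `Γ`-invariant
and meromorphic at all cusps, then `F` is a root of a monic polynomial of degree `[SL(2,ℤ) : Γ]`
whose coefficients are rational functions of `j`.
-/

set_option autoImplicit false

namespace Fermat.Agent.S24.H624

open UpperHalfPlane Complex Filter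
open scoped Manifold Topology MatrixGroups Real

/-! ### closure properties of `IsMeroAtInfty` -/

theorem IsMeroAtInfty.of_holo_bounded {a : holoRing} {m : ℕ} {Y C : ℝ}
    (h : ∀ τ : ℍ, Y ≤ τ.im → ‖(a : ℍ → ℂ) τ‖ ≤ C * Real.exp (2 * π * m * τ.im)) :
    IsMeroAtInfty (algebraMap holoRing MerH a) := by
  refine ⟨a, 1, m, Y, C, by simp, fun τ hτ => ⟨one_ne_zero, ?_⟩⟩
  have : ((1 : holoRing) : ℍ → ℂ) τ = 1 := rfl
  rw [this, div_one]
  exact h τ hτ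

theorem isMeroAtInfty_const (c : ℂ) :
    IsMeroAtInfty (algebraMap holoRing MerH (algebraMap ℂ holoRing c)) := by
  refine IsMeroAtInfty.of_holo_bounded (m := 0) (Y := 0) (C := ‖c‖) fun τ _ => ?_
  have : ((algebraMap ℂ holoRing c : holoRing) : ℍ → ℂ) τ = c := rfl
  rw [this]
  simp

theorem isMeroAtInfty_zero : IsMeroAtInfty 0 := by
  have := isMeroAtInfty_const 0
  simpa using this

theorem isMeroAtInfty_one : IsMeroAtInfty 1 := by
  have := isMeroAtInfty_const 1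
  simpa using this

theorem exp_mono_aux {m n : ℕ} (hmn : m ≤ n) (τ : ℍ) :
    Real.exp (2 * π * m * τ.im) ≤ Real.exp (2 * π * n * τ.im) := by
  apply Real.exp_le_exp.mpr
  have h1 : (m : ℝ) ≤ n := by exact_mod_cast hmn
  have h2 : 0 < τ.im := τ.im_pos
  have h3 : 0 < π := Real.pi_pos
  have : 2 * π * (m : ℝ) ≤ 2 * π * n := by nlinarith
  nlinarith

theorem IsMeroAtInfty.mul {F G : MerH} (hF : IsMeroAtInfty F) (hG : IsMeroAtInfty G) :
    IsMeroAtInfty (F * G) := by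
  obtain ⟨a₁, b₁, m₁, Y₁, C₁, h₁, hY₁⟩ := hF
  obtain ⟨a₂, b₂, m₂, Y₂, C₂, h₂, hY₂⟩ := hG
  refine ⟨a₁ * a₂, b₁ * b₂, m₁ + m₂, max Y₁ Y₂, C₁ * C₂, ?_, fun τ hτ => ?_⟩
  · rw [map_mul, map_mul, ← h₁, ← h₂]
    ring
  · obtain ⟨hb₁, hn₁⟩ := hY₁ τ (le_trans (le_max_left _ _) hτ)
    obtain ⟨hb₂, hn₂⟩ := hY₂ τ (le_trans (le_max_right _ _) hτ)
    refine ⟨mul_ne_zero hb₁ hb₂, ?_⟩
    have e : ((a₁ * a₂ : holoRing) : ℍ → ℂ) τ / ((b₁ * b₂ : holoRing) : ℍ → ℂ) τ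
        = ((a₁ : ℍ → ℂ) τ / (b₁ : ℍ → ℂ) τ) * ((a₂ : ℍ → ℂ) τ / (b₂ : ℍ → ℂ) τ) := by
      show ((a₁ : ℍ → ℂ) τ * (a₂ : ℍ → ℂ) τ) / ((b₁ : ℍ → ℂ) τ * (b₂ : ℍ → ℂ) τ) = _
      field_simp
    rw [e, norm_mul]
    have hexp : Real.exp (2 * π * ((m₁ + m₂ : ℕ) : ℝ) * τ.im)
        = Real.exp (2 * π * m₁ * τ.im) * Real.exp (2 * π * m₂ * τ.im) := by
      rw [← Real.exp_add]
      congr 1
      push_cast
      ring
    rw [hexp]
    calc ‖(a₁ : ℍ → ℂ) τ / (b₁ : ℍ → ℂ) τ‖ * ‖(a₂ : ℍ → ℂ) τ / (b₂ : ℍ → ℂ) τ‖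
        ≤ (C₁ * Real.exp (2 * π * m₁ * τ.im)) * (C₂ * Real.exp (2 * π * m₂ * τ.im)) :=
          mul_le_mul hn₁ hn₂ (norm_nonneg _) (le_trans (norm_nonneg _) hn₁)
      _ = C₁ * C₂ * (Real.exp (2 * π * m₁ * τ.im) * Real.exp (2 * π * m₂ * τ.im)) := by ring

theorem IsMeroAtInfty.add {F G : MerH} (hF : IsMeroAtInfty F) (hG : IsMeroAtInfty G) :
    IsMeroAtInfty (F + G) := by
  obtain ⟨a₁, b₁, m₁, Y₁, C₁, h₁, hY₁⟩ := hF
  obtain ⟨a₂, b₂, m₂, Y₂, C₂, h₂, hY₂⟩ := hG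
  refine ⟨a₁ * b₂ + a₂ * b₁, b₁ * b₂, m₁ + m₂, max Y₁ Y₂, |C₁| + |C₂|, ?_, fun τ hτ => ?_⟩
  · rw [map_add, map_mul, map_mul, map_mul, ← h₁, ← h₂]
    ring
  · obtain ⟨hb₁, hn₁⟩ := hY₁ τ (le_trans (le_max_left _ _) hτ)
    obtain ⟨hb₂, hn₂⟩ := hY₂ τ (le_trans (le_max_right _ _) hτ)
    refine ⟨mul_ne_zero hb₁ hb₂, ?_⟩
    have e : ((a₁ * b₂ + a₂ * b₁ : holoRing) : ℍ → ℂ) τ / ((b₁ * b₂ : holoRing) : ℍ → ℂ) τ
        = ((a₁ : ℍ → ℂ) τ / (b₁ : ℍ → ℂ) τ) + ((a₂ : ℍ → ℂ) τ / (b₂ : ℍ → ℂ) τ) := by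
      show ((a₁ : ℍ → ℂ) τ * (b₂ : ℍ → ℂ) τ + (a₂ : ℍ → ℂ) τ * (b₁ : ℍ → ℂ) τ)
        / ((b₁ : ℍ → ℂ) τ * (b₂ : ℍ → ℂ) τ) = _
      field_simp
    rw [e]
    have hE₁ := exp_mono_aux (Nat.le_add_right m₁ m₂) τ
    have hE₂ := exp_mono_aux (Nat.le_add_left m₂ m₁) τ
    have hpos : 0 < Real.exp (2 * π * ((m₁ + m₂ : ℕ) : ℝ) * τ.im) := Real.exp_pos _
    have hpos₁ : 0 < Real.exp (2 * π * (m₁ : ℝ) * τ.im) := Real.exp_pos _
    have hpos₂ : 0 < Real.exp (2 * π * (m₂ : ℝ) * τ.im) := Real.exp_pos _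
    have k₁ : ‖(a₁ : ℍ → ℂ) τ / (b₁ : ℍ → ℂ) τ‖
        ≤ |C₁| * Real.exp (2 * π * ((m₁ + m₂ : ℕ) : ℝ) * τ.im) :=
      calc _ ≤ C₁ * Real.exp (2 * π * m₁ * τ.im) := hn₁
        _ ≤ |C₁| * Real.exp (2 * π * m₁ * τ.im) :=
          mul_le_mul_of_nonneg_right (le_abs_self _) hpos₁.le
        _ ≤ |C₁| * Real.exp (2 * π * ((m₁ + m₂ : ℕ) : ℝ) * τ.im) :=
          mul_le_mul_of_nonneg_left hE₁ (abs_nonneg _)
    have k₂ : ‖(a₂ : ℍ → ℂ) τ / (b₂ : ℍ → ℂ) τ‖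
        ≤ |C₂| * Real.exp (2 * π * ((m₁ + m₂ : ℕ) : ℝ) * τ.im) :=
      calc _ ≤ C₂ * Real.exp (2 * π * m₂ * τ.im) := hn₂
        _ ≤ |C₂| * Real.exp (2 * π * m₂ * τ.im) :=
          mul_le_mul_of_nonneg_right (le_abs_self _) hpos₂.le
        _ ≤ |C₂| * Real.exp (2 * π * ((m₁ + m₂ : ℕ) : ℝ) * τ.im) :=
          mul_le_mul_of_nonneg_left hE₂ (abs_nonneg _)
    calc _ ≤ ‖(a₁ : ℍ → ℂ) τ / (b₁ : ℍ → ℂ) τ‖ + ‖(a₂ : ℍ → ℂ) τ / (b₂ : ℍ → ℂ) τ‖ :=
          norm_add_le _ _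
      _ ≤ _ := by linarith

theorem IsMeroAtInfty.neg {F : MerH} (hF : IsMeroAtInfty F) : IsMeroAtInfty (-F) := by
  have h := (isMeroAtInfty_const (-1)).mul hF
  have e : algebraMap holoRing MerH (algebraMap ℂ holoRing (-1)) * F = -F := by
    rw [map_neg, map_neg, map_one, map_one]
    ring
  rwa [e] at h

/-! ### meromorphy at all cusps -/

/-- `F` is meromorphic at all cusps: every `SL(2, ℤ)`-translate is meromorphic at `i∞`. -/
def IsMeroAtCusps (F : MerH) : Prop := ∀ γ : SL(2, ℤ), IsMeroAtInfty (γ • F)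

theorem IsMeroAtCusps.smul {F : MerH} (hF : IsMeroAtCusps F) (γ : SL(2, ℤ)) :
    IsMeroAtCusps (γ • F) := fun δ => by
  rw [← mul_smul]
  exact hF (δ * γ)

theorem IsMeroAtCusps.of_invariant {F : MerH} (hinv : ∀ γ : SL(2, ℤ), γ • F = F)
    (hF : IsMeroAtInfty F) : IsMeroAtCusps F := fun γ => by
  rw [hinv γ]
  exact hF

/-- The subring of `MerH` of functions meromorphic at all cusps. -/
def meroCusps : Subring MerH where
  carrier := {F | IsMeroAtCusps F}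
  mul_mem' hF hG := fun γ => by
    rw [smul_mul']
    exact (hF γ).mul (hG γ)
  one_mem' := fun γ => by
    rw [smul_one]
    exact isMeroAtInfty_one
  add_mem' hF hG := fun γ => by
    rw [smul_add]
    exact (hF γ).add (hG γ)
  zero_mem' := fun γ => by
    rw [smul_zero]
    exact isMeroAtInfty_zero
  neg_mem' hF := fun γ => by
    rw [smul_neg]
    exact (hF γ).neg

theorem mem_meroCusps {F : MerH} : F ∈ meroCusps ↔ IsMeroAtCusps F := Iff.rfl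

/-! ### the characteristic polynomial of a `Γ`-invariant function -/

section CharPoly

variable (Γ : Subgroup SL(2, ℤ)) [Γ.FiniteIndex]

/-- The translate of `F` attached to a coset. -/
noncomputable def translate (F : MerH) (x : SL(2, ℤ) ⧸ Γ) : MerH := (Quotient.out x) • F

variable {Γ}

omit [Γ.FiniteIndex] in
theorem translate_mk {F : MerH} (hinv : ∀ γ ∈ Γ, γ • F = F) (g : SL(2, ℤ)) :
    translate Γ F (QuotientGroup.mk g) = g • F := by
  obtain ⟨h, hh⟩ := QuotientGroup.mk_out_eq_mul Γ g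
  unfold translate
  rw [hh, mul_smul, hinv h h.2]

omit [Γ.FiniteIndex] in
theorem smul_translate {F : MerH} (hinv : ∀ γ ∈ Γ, γ • F = F) (γ : SL(2, ℤ))
    (x : SL(2, ℤ) ⧸ Γ) : γ • translate Γ F x = translate Γ F (γ • x) := by
  obtain ⟨g, rfl⟩ := QuotientGroup.mk_surjective x
  rw [translate_mk hinv, MulAction.Quotient.smul_mk, translate_mk hinv, smul_eq_mul, mul_smul]

variable (Γ)

/-- The polynomial `∏ₓ (X - x • F)` over the cosets `x ∈ SL(2, ℤ) / Γ`. -/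
noncomputable def charPolyOf (F : MerH) : Polynomial MerH :=
  letI : Fintype (SL(2, ℤ) ⧸ Γ) := Fintype.ofFinite _
  ∏ x : SL(2, ℤ) ⧸ Γ, (Polynomial.X - Polynomial.C (translate Γ F x))

theorem charPolyOf_monic (F : MerH) : (charPolyOf Γ F).Monic := by
  unfold charPolyOf
  exact Polynomial.monic_prod_of_monic _ _ fun x _ => Polynomial.monic_X_sub_C _

theorem charPolyOf_natDegree (F : MerH) : (charPolyOf Γ F).natDegree = Γ.index := by
  unfold charPolyOf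
  let _ : Fintype (SL(2, ℤ) ⧸ Γ) := Fintype.ofFinite _
  rw [Polynomial.natDegree_prod_of_monic _ _ fun x _ => Polynomial.monic_X_sub_C _]
  simp only [Polynomial.natDegree_X_sub_C, Finset.sum_const, Finset.card_univ, smul_eq_mul,
    mul_one]
  rw [Subgroup.index_eq_card, Nat.card_eq_fintype_card]

variable {Γ}

theorem charPolyOf_eval {F : MerH} (hinv : ∀ γ ∈ Γ, γ • F = F) :
    (charPolyOf Γ F).eval F = 0 := by
  unfold charPolyOf
  rw [Polynomial.eval_prod]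
  let _ : Fintype (SL(2, ℤ) ⧸ Γ) := Fintype.ofFinite _
  refine Finset.prod_eq_zero (Finset.mem_univ (QuotientGroup.mk (1 : SL(2, ℤ)))) ?_
  rw [translate_mk hinv, one_smul]
  simp

theorem charPolyOf_map_smul {F : MerH} (hinv : ∀ γ ∈ Γ, γ • F = F) (γ : SL(2, ℤ)) :
    (charPolyOf Γ F).map (MulSemiringAction.toRingHom SL(2, ℤ) MerH γ) = charPolyOf Γ F := by
  unfold charPolyOf
  let _ : Fintype (SL(2, ℤ) ⧸ Γ) := Fintype.ofFinite _
  rw [Polynomial.map_prod]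
  simp only [Polynomial.map_sub, Polynomial.map_X, Polynomial.map_C,
    MulSemiringAction.toRingHom_apply]
  refine Fintype.prod_equiv (MulAction.toPerm γ) _ _ fun x => ?_
  rw [smul_translate hinv]
  rfl

theorem smul_coeff_charPolyOf {F : MerH} (hinv : ∀ γ ∈ Γ, γ • F = F) (γ : SL(2, ℤ)) (i : ℕ) :
    γ • (charPolyOf Γ F).coeff i = (charPolyOf Γ F).coeff i := by
  have h := congrArg (fun p => Polynomial.coeff p i) (charPolyOf_map_smul hinv γ)
  simp only [Polynomial.coeff_map, MulSemiringAction.toRingHom_apply] at h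
  exact h

theorem coeff_charPolyOf_mem {F : MerH} (hcusp : IsMeroAtCusps F) (i : ℕ) :
    (charPolyOf Γ F).coeff i ∈ meroCusps := by
  let _ : Fintype (SL(2, ℤ) ⧸ Γ) := Fintype.ofFinite _
  have key : charPolyOf Γ F
      = (∏ x : SL(2, ℤ) ⧸ Γ, (Polynomial.X - Polynomial.C
          (⟨translate Γ F x, hcusp.smul _⟩ : meroCusps))).map meroCusps.subtype := by
    unfold charPolyOf
    rw [Polynomial.map_prod]
    refine Finset.prod_congr rfl fun x _ => ?_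
    simp
  rw [key, Polynomial.coeff_map]
  exact Subtype.property _

/-- **Completeness, polynomial form.** A `Γ`-invariant function meromorphic at all cusps is a
root of a monic polynomial of degree `[SL(2,ℤ) : Γ]` with coefficients rational in `j`. -/
theorem exists_monic_of_invariant {F : MerH} (hinv : ∀ γ ∈ Γ, γ • F = F)
    (hcusp : IsMeroAtCusps F) :
    ∃ Φ : Polynomial MerH, Φ.Monic ∧ Φ.natDegree = Γ.index ∧ Φ.eval F = 0 ∧
      ∀ i : ℕ, ∃ P Q : Polynomial ℂ, Q ≠ 0 ∧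
        Φ.coeff i * algebraMap holoRing MerH (Polynomial.aeval jH Q)
          = algebraMap holoRing MerH (Polynomial.aeval jH P) :=
  ⟨charPolyOf Γ F, charPolyOf_monic Γ F, charPolyOf_natDegree Γ F, charPolyOf_eval hinv,
    fun i => exists_rational_of_invariant (smul_coeff_charPolyOf hinv · i)
      ((coeff_charPolyOf_mem hcusp i) 1 |> fun h => by simpa using h)⟩

end CharPoly

end Fermat.Agent.S24.H624
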