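import Fermat.Agent.S24.H624.Regular
import Fermat.Agent.S24.D5.H108Growth
import Fermat.Agent.S24.D5.H108Unique

/-!
# `SL(2, ℤ)`-invariant meromorphic functions are rational functions of `j`

`exists_rational_of_invariant`: an `SL(2, ℤ)`-invariant element `F` of `MerH` (quotients of
holomorphic functions on `ℍ`) which is meromorphic at `i∞` satisfies `F * Q(j) = P(j)` for
polynomials `P`, `Q ≠ 0`.
-/

set_option autoImplicit false

namespace Fermat.Agent.S24.H624

open UpperHalfPlane Complex Filter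
open scoped Manifold Topology MatrixGroups Real

local notation "Δ" => ModularForm.discriminant

/-! ### evaluation at a point, the `j`-function as an element of `holoRing` -/

/-- Evaluation at `τ` as an algebra hom. -/
noncomputable def evalAt (τ : ℍ) : holoRing →ₐ[ℂ] ℂ where
  toFun f := (f : ℍ → ℂ) τ
  map_one' := rfl
  map_mul' _ _ := rfl
  map_zero' := rfl
  map_add' _ _ := rfl
  commutes' _ := rfl

@[simp]
theorem evalAt_apply (τ : ℍ) (f : holoRing) : evalAt τ f = (f : ℍ → ℂ) τ := rfl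

/-- The `j`-function `E₄³ / Δ` as a holomorphic function. -/
noncomputable def jH : holoRing := ⟨H108.jFun, H108.mdifferentiable_jFun⟩

@[simp]
theorem jH_apply (τ : ℍ) : (jH : ℍ → ℂ) τ = H108.jFun τ := rfl

theorem aeval_jH_apply (P : Polynomial ℂ) (τ : ℍ) :
    ((Polynomial.aeval jH P : holoRing) : ℍ → ℂ) τ = P.eval (H108.jFun τ) := by
  have h := Polynomial.aeval_algHom_apply (evalAt τ) jH P
  rw [evalAt_apply, evalAt_apply, jH_apply] at h
  rw [← h, Polynomial.coe_aeval_eq_eval]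

theorem smul_aeval_jH (γ : SL(2, ℤ)) (P : Polynomial ℂ) :
    γ • (Polynomial.aeval jH P : holoRing) = Polynomial.aeval jH P := by
  ext τ
  rw [smul_holoRing_apply, aeval_jH_apply, aeval_jH_apply, H108.jFun_smul]

theorem aeval_jH_ne_zero {P : Polynomial ℂ} (hP : P ≠ 0) :
    (Polynomial.aeval jH P : holoRing) ≠ 0 := by
  intro h
  apply hP
  refine H108.polynomial_eq_of_eval_jFun_eq P 0 fun τ => ?_
  have := aeval_jH_apply P τ
  rw [h] at this
  rw [Polynomial.eval_zero, ← H108.jFun_def, ← this]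
  rfl

/-! ### finiteness of zeros in compact sets -/

theorem finite_zeros_in_compact {b : ℍ → ℂ} (hb : MDiff b) (hb0 : b ≠ 0) {K : Set ℂ}
    (hK : IsCompact K) (hKU : ∀ z ∈ K, 0 < z.im) :
    {z ∈ K | (b ∘ ofComplex) z = 0}.Finite := by
  by_contra hinf
  have hinf' : {z ∈ K | (b ∘ ofComplex) z = 0}.Infinite := hinf
  obtain ⟨x, hxK, hacc⟩ := hinf'.exists_accPt_of_subset_isCompact hK (Set.sep_subset _ _)
  rw [accPt_iff_frequently_nhdsNE] at hacc
  have hx : 0 < x.im := hKU x hxK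
  have han : AnalyticAt ℂ (b ∘ ofComplex) x := analyticAt_of_mdiff' hb hx
  have hfreq : ∃ᶠ z in 𝓝[≠] x, (b ∘ ofComplex) z = 0 := hacc.mono fun z hz => hz.2
  have hev := han.frequently_zero_iff_eventually_zero.mp hfreq
  exact hb0 (eq_zero_of_eventually_zero hb (τ := ⟨x, hx⟩) hev)

/-- The standard fundamental domain truncated at height `Y`, as a subset of `ℂ`. -/
def fdTrunc (Y : ℝ) : Set ℂ :=
  {z | 1 ≤ normSq z ∧ |z.re| ≤ 1 / 2 ∧ 0 ≤ z.im ∧ z.im ≤ Y}

theorem isCompact_fdTrunc (Y : ℝ) : IsCompact (fdTrunc Y) := by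
  apply Metric.isCompact_of_isClosed_isBounded
  · have h1 : IsClosed {z : ℂ | 1 ≤ normSq z} :=
      isClosed_le continuous_const Complex.continuous_normSq
    have h2 : IsClosed {z : ℂ | |z.re| ≤ 1 / 2} :=
      isClosed_le (continuous_abs.comp Complex.continuous_re) continuous_const
    have h3 : IsClosed {z : ℂ | 0 ≤ z.im} := isClosed_le continuous_const Complex.continuous_im
    have h4 : IsClosed {z : ℂ | z.im ≤ Y} := isClosed_le Complex.continuous_im continuous_const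
    exact h1.inter (h2.inter (h3.inter h4))
  · rw [Metric.isBounded_iff_subset_closedBall (0 : ℂ)]
    refine ⟨1 / 2 + |Y|, fun z hz => ?_⟩
    obtain ⟨-, h2, h3, h4⟩ := hz
    rw [mem_closedBall_zero_iff]
    calc ‖z‖ ≤ |z.re| + |z.im| := Complex.norm_le_abs_re_add_abs_im z
      _ ≤ 1 / 2 + |Y| := by
        have : |z.im| ≤ |Y| := by
          rw [abs_of_nonneg h3]
          exact h4.trans (le_abs_self Y)
        linarith

theorem im_pos_of_mem_fdTrunc {Y : ℝ} {z : ℂ} (hz : z ∈ fdTrunc Y) : 0 < z.im := by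
  obtain ⟨h1, h2, h3, -⟩ := hz
  rw [Complex.normSq_apply] at h1
  rcases h3.lt_or_eq with h | h
  · exact h
  · exfalso
    rw [← h] at h1
    have hre : z.re * z.re ≤ 1 / 4 := by
      have := abs_le.mp h2
      nlinarith
    nlinarith

/-! ### meromorphy at `i∞` -/

/-- `F` is meromorphic at `i∞`: it has a representation `a / b` with `b` non-vanishing and
`a / b` of at most exponential growth on a half-plane `Im τ ≥ Y`. -/
def IsMeroAtInfty (F : MerH) : Prop :=
  ∃ (a b : holoRing) (m : ℕ) (Y C : ℝ),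
    F * algebraMap holoRing MerH b = algebraMap holoRing MerH a ∧
    ∀ τ : ℍ, Y ≤ τ.im → (b : ℍ → ℂ) τ ≠ 0 ∧
      ‖(a : ℍ → ℂ) τ / (b : ℍ → ℂ) τ‖ ≤ C * Real.exp (2 * π * m * τ.im)

theorem ordM_nonneg_of_apply_ne_zero {F : MerH} {a b : holoRing}
    (hF : F * algebraMap holoRing MerH b = algebraMap holoRing MerH a) {τ : ℍ}
    (hb : (b : ℍ → ℂ) τ ≠ 0) : 0 ≤ ordM τ F := by
  have hb0 : b ≠ 0 := by
    rintro rfl
    exact hb rfl
  have hbK := algebraMap_MerH_ne_zero hb0
  have hFe : F = algebraMap holoRing MerH a / algebraMap holoRing MerH b := by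
    rw [eq_div_iff hbK, hF]
  by_cases ha0 : a = 0
  · subst ha0
    rw [hFe]
    simp
  · rw [hFe, ordM_div τ (algebraMap_MerH_ne_zero ha0) hbK, ordM_algebraMap τ ha0,
      ordM_algebraMap τ hb0, (ordAt_eq_zero_iff b.2 τ).mpr hb]
    simp

/-! ### growth of polynomials in `j` -/

theorem isBoundedAtImInfty_discriminant : IsBoundedAtImInfty (fun τ : ℍ => Δ τ) :=
  ModularFormClass.bdd_at_infty (CuspForm.discriminant)

theorem isBoundedAtImInfty_pow {f : ℍ → ℂ} (hf : IsBoundedAtImInfty f) (n : ℕ) :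
    IsBoundedAtImInfty (fun τ => f τ ^ n) := by
  induction n with
  | zero =>
    simp only [pow_zero]
    exact Filter.const_boundedAtFilter _ (1 : ℂ)
  | succ n ih =>
    simp only [pow_succ]
    exact ih.mul hf

theorem isBoundedAtImInfty_sum {ι : Type*} (s : Finset ι) (f : ι → ℍ → ℂ)
    (hf : ∀ i ∈ s, IsBoundedAtImInfty (f i)) :
    IsBoundedAtImInfty (fun τ => ∑ i ∈ s, f i τ) := by
  classical
  induction s using Finset.induction_on with
  | empty =>
    simp only [Finset.sum_empty]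
    exact Filter.const_boundedAtFilter _ (0 : ℂ)
  | insert i s hi ih =>
    simp only [Finset.sum_insert hi]
    exact (hf i (Finset.mem_insert_self i s)).add
      (ih fun j hj => hf j (Finset.mem_insert_of_mem hj))

theorem isBoundedAtImInfty_eval_jFun_mul (P : Polynomial ℂ) (d : ℕ) (hd : P.natDegree ≤ d) :
    IsBoundedAtImInfty (fun τ : ℍ => P.eval (H108.jFun τ) * Δ τ ^ d) := by
  have hJ : IsBoundedAtImInfty (fun τ : ℍ => H108.jFun τ * Δ τ) := by
    have := H108.isBoundedAtImInfty_jFun_mul_discriminant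
    simpa using this
  have key : (fun τ : ℍ => P.eval (H108.jFun τ) * Δ τ ^ d)
      = fun τ : ℍ => ∑ i ∈ Finset.range (d + 1),
          P.coeff i * ((H108.jFun τ * Δ τ) ^ i * Δ τ ^ (d - i)) := by
    funext τ
    rw [Polynomial.eval_eq_sum_range' (Nat.lt_succ_of_le hd), Finset.sum_mul]
    refine Finset.sum_congr rfl fun i hi => ?_
    have hi' : i ≤ d := Nat.lt_succ_iff.mp (Finset.mem_range.mp hi)
    rw [mul_pow, mul_assoc, mul_assoc, ← pow_add, Nat.add_sub_cancel' hi']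
  rw [key]
  refine isBoundedAtImInfty_sum _ _ fun i _ => ?_
  exact (Filter.const_boundedAtFilter _ (P.coeff i)).mul
    ((isBoundedAtImInfty_pow hJ i).mul (isBoundedAtImInfty_pow isBoundedAtImInfty_discriminant _))

/-! ### the main theorem -/

theorem exists_finite_poles {F : MerH} (hinv : ∀ γ : SL(2, ℤ), γ • F = F)
    (hgr : IsMeroAtInfty F) :
    ∃ T : Finset ℍ, ∀ τ : ℍ, ordM τ F < 0 → ∃ γ : SL(2, ℤ), γ • τ ∈ T := by
  classical
  obtain ⟨a, b, m, Y, C, hF, hY⟩ := hgr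
  have hb0 : (b : ℍ → ℂ) ≠ 0 := by
    intro h0
    obtain ⟨τ, hτ⟩ : ∃ τ : ℍ, Y ≤ τ.im :=
      ⟨⟨⟨0, max Y 1⟩, lt_of_lt_of_le one_pos (le_max_right _ _)⟩, le_max_left _ _⟩
    exact (hY τ hτ).1 (by rw [h0]; rfl)
  have hfin := finite_zeros_in_compact b.2 hb0 (isCompact_fdTrunc Y)
    (fun z hz => im_pos_of_mem_fdTrunc hz)
  refine ⟨hfin.toFinset.image ofComplex, fun τ hτ => ?_⟩
  obtain ⟨γ, hγ⟩ := ModularGroup.exists_smul_mem_fd τ
  refine ⟨γ, ?_⟩
  have hord : ordM (γ • τ) F < 0 := by rwa [ordM_of_smul_eq (hinv γ) τ]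
  have hbz : (b : ℍ → ℂ) (γ • τ) = 0 := by
    by_contra hne
    exact absurd (ordM_nonneg_of_apply_ne_zero hF hne) (not_le.mpr hord)
  have him : (γ • τ).im ≤ Y := by
    by_contra hgt
    exact (hY (γ • τ) (le_of_lt (not_le.mp hgt))).1 hbz
  rw [Finset.mem_image]
  refine ⟨((γ • τ : ℍ) : ℂ), ?_, ofComplex_apply _⟩
  rw [Set.Finite.mem_toFinset]
  refine ⟨⟨hγ.1, hγ.2, (γ • τ).im_pos.le, him⟩, ?_⟩
  simp only [Function.comp_apply, ofComplex_apply]
  exact hbz

theorem ordAt_pow_mul_ge {f g : ℍ → ℂ} (hf : MDiff f) (hg : MDiff g) {τ : ℍ} (hfτ : f τ = 0)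
    (n : ℕ) : (n : ℕ∞) ≤ ordAt τ (f ^ n * g) := by
  rw [ordAt_mul (hf.pow n) hg]
  have h1 : ordAt τ (f ^ n) = n • ordAt τ f := by
    rw [ordAt_def, ordAt_def]
    exact analyticOrderAt_pow (analyticAt_of_mdiff hf τ) n
  have h2 : 1 ≤ ordAt τ f := by
    rw [Order.one_le_iff_ne_zero]
    intro h0
    exact (ordAt_eq_zero_iff hf τ).mp h0 hfτ
  rw [h1]
  calc (n : ℕ∞) = n • (1 : ℕ∞) := by simp
    _ ≤ n • ordAt τ f := by
      rw [nsmul_eq_mul, nsmul_eq_mul]
      exact mul_le_mul_right h2 _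
    _ ≤ n • ordAt τ f + ordAt τ g := le_self_add

/-- **Invariant meromorphic functions are rational in `j`.** -/
theorem exists_rational_of_invariant {F : MerH} (hinv : ∀ γ : SL(2, ℤ), γ • F = F)
    (hgr : IsMeroAtInfty F) :
    ∃ P Q : Polynomial ℂ, Q ≠ 0 ∧
      F * algebraMap holoRing MerH (Polynomial.aeval jH Q)
        = algebraMap holoRing MerH (Polynomial.aeval jH P) := by
  classical
  by_cases hF0 : F = 0
  · subst hF0
    exact ⟨0, 1, one_ne_zero, by simp⟩
  obtain ⟨T, hT⟩ := exists_finite_poles hinv hgr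
  obtain ⟨a, b, m, Y, C, hF, hY⟩ := hgr
  -- uniform pole order bound
  set N0 : ℕ := T.sup (fun t => (-ordM t F).toNat) with hN0
  set Q : Polynomial ℂ :=
    ∏ t ∈ T, (Polynomial.X - Polynomial.C (H108.jFun t)) ^ N0 with hQ
  have hQ0 : Q ≠ 0 := by
    rw [hQ]
    exact Finset.prod_ne_zero_iff.mpr fun t _ =>
      pow_ne_zero _ (Polynomial.X_sub_C_ne_zero _)
  set Qh : holoRing := Polynomial.aeval jH Q with hQh
  have hQh0 : Qh ≠ 0 := aeval_jH_ne_zero hQ0
  set G : MerH := F * algebraMap holoRing MerH Qh with hG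
  have hGord : ∀ τ : ℍ, 0 ≤ ordM τ G := by
    intro τ
    rw [hG, ordM_mul τ hF0 (algebraMap_MerH_ne_zero hQh0), ordM_algebraMap τ hQh0]
    by_cases hτ : 0 ≤ ordM τ F
    · have := Int.natCast_nonneg (ordAt τ (Qh : ℍ → ℂ)).toNat
      omega
    · obtain ⟨γ, hγ⟩ := hT τ (not_le.mp hτ)
      have hord : ordM (γ • τ) F = ordM τ F := ordM_of_smul_eq (hinv γ) τ
      have hle : (-ordM τ F).toNat ≤ N0 := by
        rw [← hord]
        exact Finset.le_sup (f := fun t => (-ordM t F).toNat) hγ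
      -- split off the factor at `γ • τ`
      have hsplit : Q = (Polynomial.X - Polynomial.C (H108.jFun (γ • τ))) ^ N0
          * ∏ t ∈ T.erase (γ • τ), (Polynomial.X - Polynomial.C (H108.jFun t)) ^ N0 := by
        rw [hQ]
        exact (Finset.mul_prod_erase T
          (fun t => (Polynomial.X - Polynomial.C (H108.jFun t)) ^ N0) hγ).symm
      set R : holoRing := Polynomial.aeval jH
        (∏ t ∈ T.erase (γ • τ), (Polynomial.X - Polynomial.C (H108.jFun t)) ^ N0) with hR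
      set f : holoRing := jH - algebraMap ℂ holoRing (H108.jFun (γ • τ)) with hf
      have hQhe : Qh = f ^ N0 * R := by
        rw [hQh, hsplit, map_mul, map_pow, map_sub, Polynomial.aeval_X, Polynomial.aeval_C]
      have hfτ : (f : ℍ → ℂ) τ = 0 := by
        show H108.jFun τ - H108.jFun (γ • τ) = 0
        rw [H108.jFun_smul, sub_self]
      have hge : (N0 : ℕ∞) ≤ ordAt τ (Qh : ℍ → ℂ) := by
        have := ordAt_pow_mul_ge f.2 R.2 hfτ N0
        rw [hQhe]
        exact this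
      have hne : ordAt τ (Qh : ℍ → ℂ) ≠ ⊤ :=
        ordAt_ne_top Qh.2 (fun h => hQh0 (Subtype.ext h)) τ
      have hge' : N0 ≤ (ordAt τ (Qh : ℍ → ℂ)).toNat := by
        rw [← ENat.natCast_le_natCast, ENat.natCast_toNat hne]
        exact hge
      omega
  obtain ⟨h, hh⟩ := exists_holo_of_ordM_nonneg G hGord
  -- invariance of `h`
  have hhinv : ∀ γ : SL(2, ℤ), γ • h = h := by
    intro γ
    apply IsFractionRing.injective holoRing MerH
    rw [← smul_algebraMap_MerH, hh, hG, smul_mul', hinv γ, smul_algebraMap_MerH,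
      smul_aeval_jH]
  have hhinv' : ∀ (γ : SL(2, ℤ)) (τ : ℍ), (h : ℍ → ℂ) (γ • τ) = (h : ℍ → ℂ) τ := by
    intro γ τ
    have := congrArg (fun g : holoRing => (g : ℍ → ℂ) (γ • τ)) (hhinv γ)
    simp only [smul_holoRing_apply, inv_smul_smul] at this
    exact this.symm
  -- pointwise relation `h * b = a * Qh`
  have hrel : h * b = a * Qh := by
    apply IsFractionRing.injective holoRing MerH
    rw [map_mul, map_mul, hh, hG, ← hF]
    ring
  have hrel' : ∀ τ : ℍ, (h : ℍ → ℂ) τ * (b : ℍ → ℂ) τ = (a : ℍ → ℂ) τ * (Qh : ℍ → ℂ) τ :=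
    fun τ => congrArg (fun g : holoRing => (g : ℍ → ℂ) τ) hrel
  -- growth of `h`
  set d : ℕ := Q.natDegree with hd
  have hbd1 : IsBoundedAtImInfty
      (fun τ : ℍ => (a : ℍ → ℂ) τ / (b : ℍ → ℂ) τ * Δ τ ^ m) :=
    H108.isBoundedAtImInfty_mul_discriminant_pow_of_exp_growth
      ⟨C, Y, fun τ hτ => (hY τ hτ).2⟩
  have hbd2 : IsBoundedAtImInfty (fun τ : ℍ => Q.eval (H108.jFun τ) * Δ τ ^ d) :=
    isBoundedAtImInfty_eval_jFun_mul Q d le_rfl
  have hbd : IsBoundedAtImInfty (fun τ : ℍ => (h : ℍ → ℂ) τ * Δ τ ^ (m + d)) := by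
    have hprod : BoundedAtFilter atImInfty _ := hbd1.mul hbd2
    rw [BoundedAtFilter] at hprod
    rw [IsBoundedAtImInfty, BoundedAtFilter]
    refine hprod.congr' ?_ EventuallyEq.rfl
    have hA : ∀ᶠ τ : ℍ in atImInfty, Y ≤ τ.im :=
      (Filter.eventually_ge_atTop Y).comap UpperHalfPlane.im
    filter_upwards [hA] with τ hτ
    have hbτ := (hY τ hτ).1
    have h1 := hrel' τ
    rw [aeval_jH_apply] at h1
    simp only [Pi.mul_apply]
    rw [pow_add]
    field_simp
    linear_combination (-(Δ τ ^ m * Δ τ ^ d)) * h1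
  obtain ⟨P, -, hP⟩ := H108.exists_polynomial_of_invariant (h : ℍ → ℂ) h.2 hhinv' (m + d) hbd
  refine ⟨P, Q, hQ0, ?_⟩
  rw [← hQh, ← hG, ← hh]
  congr 1
  ext τ
  rw [aeval_jH_apply, hP τ, H108.jFun_def]

end Fermat.Agent.S24.H624
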