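import Fermat.Agent.S24.H624.Elliptic

/-!
# Orders of elements of `MerH`; an element with no poles is holomorphic
-/

set_option autoImplicit false

namespace Fermat.Agent.S24.H624

open UpperHalfPlane Complex
open scoped Manifold Topology MatrixGroups

/-- Order at `τ` of a quotient of holomorphic functions (`0` for the zero function). -/
noncomputable def ordM (τ : ℍ) (F : MerH) : ℤ := (laurentAt τ F).order

theorem ordM_def (τ : ℍ) (F : MerH) : ordM τ F = (laurentAt τ F).order := rfl

@[simp]
theorem ordM_zero (τ : ℍ) : ordM τ 0 = 0 := by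
  rw [ordM_def, map_zero, HahnSeries.order_zero]

@[simp]
theorem ordM_one (τ : ℍ) : ordM τ 1 = 0 := by
  rw [ordM_def, map_one, HahnSeries.order_one]

theorem algebraMap_MerH_ne_zero {f : holoRing} (hf : f ≠ 0) :
    algebraMap holoRing MerH f ≠ 0 := by
  intro h0
  exact hf ((IsFractionRing.injective holoRing MerH) (by rw [h0, map_zero]))

theorem ordM_algebraMap (τ : ℍ) {f : holoRing} (hf : f ≠ 0) :
    ordM τ (algebraMap holoRing MerH f) = ((ordAt τ (f : ℍ → ℂ)).toNat : ℤ) :=
  order_laurentAt_algebraMap τ hf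

theorem ordM_algebraMap_nonneg (τ : ℍ) (f : holoRing) :
    0 ≤ ordM τ (algebraMap holoRing MerH f) := by
  by_cases hf : f = 0
  · subst hf
    simp
  · rw [ordM_algebraMap τ hf]
    exact Int.natCast_nonneg _

theorem ordM_mul (τ : ℍ) {F G : MerH} (hF : F ≠ 0) (hG : G ≠ 0) :
    ordM τ (F * G) = ordM τ F + ordM τ G := by
  rw [ordM_def, map_mul]
  exact HahnSeries.order_mul ((map_ne_zero _).mpr hF) ((map_ne_zero _).mpr hG)

theorem ordM_inv (τ : ℍ) (F : MerH) : ordM τ F⁻¹ = -ordM τ F := by
  by_cases hF : F = 0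
  · subst hF
    simp
  · have h := ordM_mul τ hF (inv_ne_zero hF)
    rw [mul_inv_cancel₀ hF, ordM_one] at h
    omega

theorem ordM_div (τ : ℍ) {F G : MerH} (hF : F ≠ 0) (hG : G ≠ 0) :
    ordM τ (F / G) = ordM τ F - ordM τ G := by
  rw [div_eq_mul_inv, ordM_mul τ hF (inv_ne_zero hG), ordM_inv]
  ring

theorem ordM_pow (τ : ℍ) (F : MerH) (n : ℕ) : ordM τ (F ^ n) = n * ordM τ F := by
  by_cases hF : F = 0
  · subst hF
    rcases n with _ | n
    · simp
    · simp
  · induction n with
    | zero => simp
    | succ n ih =>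
      rw [pow_succ, ordM_mul τ (pow_ne_zero n hF) hF, ih]
      push_cast
      ring

theorem ordM_smul (γ : SL(2, ℤ)) (τ : ℍ) (F : MerH) : ordM τ (γ • F) = ordM (γ⁻¹ • τ) F :=
  order_laurentAt_smul γ τ F

theorem ordM_of_smul_eq {γ : SL(2, ℤ)} {F : MerH} (h : γ • F = F) (τ : ℍ) :
    ordM (γ • τ) F = ordM τ F := by
  have := ordM_smul γ (γ • τ) F
  rw [h, inv_smul_smul] at this
  exact this

theorem min_ordM_le_ordM_add (τ : ℍ) {F G : MerH} (h : F + G ≠ 0) :
    min (ordM τ F) (ordM τ G) ≤ ordM τ (F + G) := by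
  rw [ordM_def, ordM_def, ordM_def, map_add]
  exact HahnSeries.min_order_le_order_add (by rw [← map_add]; exact (map_ne_zero _).mpr h)

/-- A Laurent series of nonnegative order comes from a power series. -/
theorem exists_powerSeries_of_order_nonneg {R : Type*} [CommRing R] (x : LaurentSeries R)
    (hx : 0 ≤ x.order) : ∃ φ : PowerSeries R, HahnSeries.ofPowerSeries ℤ R φ = x := by
  obtain ⟨n, hn⟩ := Int.eq_ofNat_of_zero_le hx
  exact ⟨PowerSeries.X ^ n * x.powerSeriesPart, LaurentSeries.X_order_mul_powerSeriesPart hn.symm⟩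

/-- The value of an element of `MerH` at a point (`coeff 0` of the Laurent expansion). -/
noncomputable def valM (τ : ℍ) (F : MerH) : ℂ := (laurentAt τ F).coeff 0

theorem valM_def (τ : ℍ) (F : MerH) : valM τ F = (laurentAt τ F).coeff 0 := rfl

theorem valM_algebraMap (τ : ℍ) (f : holoRing) :
    valM τ (algebraMap holoRing MerH f) = (f : ℍ → ℂ) τ := by
  rw [valM_def, laurentAt_algebraMap]
  have := coeff_ofPowerSeries_nat (taylorAt τ f) 0
  rw [Nat.cast_zero] at this
  rw [this, coeff_taylorAt, taylorCoeff_zero_idx]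

/-- Key relation: if `F * b = a` with `a b` holomorphic and `F` has no pole at `τ`, then
`valM τ F * b τ = a τ`. -/
theorem valM_mul_eq {F : MerH} {a b : holoRing}
    (hF : F * algebraMap holoRing MerH b = algebraMap holoRing MerH a) {τ : ℍ}
    (hτ : 0 ≤ ordM τ F) : valM τ F * (b : ℍ → ℂ) τ = (a : ℍ → ℂ) τ := by
  obtain ⟨φ, hφ⟩ := exists_powerSeries_of_order_nonneg (laurentAt τ F) hτ
  have h1 : φ * taylorAt τ b = taylorAt τ a := by
    apply HahnSeries.ofPowerSeries_injective (Γ := ℤ)
    rw [map_mul, hφ, ← laurentAt_algebraMap, ← laurentAt_algebraMap, ← map_mul, hF]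
  have h2 := congrArg (PowerSeries.coeff 0) h1
  rw [PowerSeries.coeff_mul] at h2
  simp only [Finset.Nat.antidiagonal_zero, Finset.sum_singleton, coeff_taylorAt,
    taylorCoeff_zero_idx] at h2
  rw [valM_def, ← hφ]
  have := coeff_ofPowerSeries_nat φ 0
  rw [Nat.cast_zero] at this
  rw [this]
  exact h2

/-- Coefficient relation at the order of the denominator. -/
theorem valM_mul_taylorCoeff {F : MerH} {a b : holoRing}
    (hF : F * algebraMap holoRing MerH b = algebraMap holoRing MerH a) {τ : ℍ}
    (hτ : 0 ≤ ordM τ F) {k : ℕ} (hk : ordAt τ (b : ℍ → ℂ) = k) :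
    valM τ F * taylorCoeff τ (b : ℍ → ℂ) k = taylorCoeff τ (a : ℍ → ℂ) k := by
  obtain ⟨φ, hφ⟩ := exists_powerSeries_of_order_nonneg (laurentAt τ F) hτ
  have h1 : φ * taylorAt τ b = taylorAt τ a := by
    apply HahnSeries.ofPowerSeries_injective (Γ := ℤ)
    rw [map_mul, hφ, ← laurentAt_algebraMap, ← laurentAt_algebraMap, ← map_mul, hF]
  have h2 := congrArg (PowerSeries.coeff k) h1
  rw [PowerSeries.coeff_mul] at h2
  have hord : (taylorAt τ b).order = k := by rw [order_taylorAt, hk]
  rw [Finset.sum_eq_single (0, k)] at h2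
  · rw [valM_def, ← hφ]
    have := coeff_ofPowerSeries_nat φ 0
    rw [Nat.cast_zero] at this
    rw [this]
    simpa using h2
  · rintro ⟨i, j⟩ hij hne
    have hsum : i + j = k := by simpa using hij
    have hj : j < k := by
      rcases Nat.eq_zero_or_pos i with hi | hi
      · exfalso
        apply hne
        subst hi
        have : j = k := by omega
        rw [this]
      · omega
    have : PowerSeries.coeff j (taylorAt τ b) = 0 := by
      apply PowerSeries.coeff_of_lt_order
      rw [hord]
      exact_mod_cast hj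
    simp [this]
  · intro h
    exfalso
    apply h
    simp

/-- **Regularity.** An element of `MerH` without poles is (the image of) a holomorphic
function. -/
theorem exists_holo_of_ordM_nonneg (F : MerH) (h : ∀ τ : ℍ, 0 ≤ ordM τ F) :
    ∃ f : holoRing, algebraMap holoRing MerH f = F := by
  obtain ⟨a, b, hb, rfl⟩ := IsFractionRing.div_surjective (A := holoRing) F
  have hb0 : b ≠ 0 := nonZeroDivisors.ne_zero hb
  have hbK : algebraMap holoRing MerH b ≠ 0 := algebraMap_MerH_ne_zero hb0
  by_cases ha0 : a = 0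
  · subst ha0
    exact ⟨0, by simp⟩
  have haK : algebraMap holoRing MerH a ≠ 0 := algebraMap_MerH_ne_zero ha0
  set F : MerH := algebraMap holoRing MerH a / algebraMap holoRing MerH b with hFdef
  have hF : F * algebraMap holoRing MerH b = algebraMap holoRing MerH a :=
    div_mul_cancel₀ _ hbK
  have hval : ∀ τ : ℍ, valM τ F * (b : ℍ → ℂ) τ = (a : ℍ → ℂ) τ :=
    fun τ => valM_mul_eq hF (h τ)
  have hbfun : (b : ℍ → ℂ) ≠ 0 := fun h0 => hb0 (Subtype.ext h0)
  have hafun : (a : ℍ → ℂ) ≠ 0 := fun h0 => ha0 (Subtype.ext h0)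
  -- the candidate function
  have hmd : MDiff (fun τ : ℍ => valM τ F) := by
    rw [UpperHalfPlane.mdifferentiable_iff]
    intro z hz
    have hz' : 0 < z.im := hz
    set τ₀ : ℍ := ⟨z, hz'⟩ with hτ₀
    have hzτ : (τ₀ : ℂ) = z := rfl
    -- local factorisations
    have hbne := ordAt_ne_top b.2 hbfun τ₀
    have hane := ordAt_ne_top a.2 hafun τ₀
    obtain ⟨k, hk⟩ := ENat.ne_top_iff_exists.mp hbne
    obtain ⟨l, hl⟩ := ENat.ne_top_iff_exists.mp hane
    have hkl : k ≤ l := by
      have h1 := h τ₀
      rw [hFdef, ordM_div τ₀ haK hbK, ordM_algebraMap τ₀ ha0, ordM_algebraMap τ₀ hb0,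
        ← hk, ← hl] at h1
      simp only [ENat.toNat_natCast] at h1
      omega
    obtain ⟨u, hu, hu0, hbu⟩ :=
      ((analyticAt_of_mdiff b.2 τ₀).analyticOrderAt_eq_natCast).mp
        (by rw [← ordAt_def, ← hk])
    obtain ⟨w, hw, -, haw⟩ :=
      ((analyticAt_of_mdiff a.2 τ₀).analyticOrderAt_eq_natCast).mp
        (by rw [← ordAt_def, ← hl])
    rw [hzτ] at hu hw hbu haw hu0
    -- the analytic model
    have hH : AnalyticAt ℂ (fun y : ℂ => (y - z) ^ (l - k) * w y / u y) z := by
      have h1 : AnalyticAt ℂ (fun y : ℂ => (y - z) ^ (l - k) * w y) z := by fun_prop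
      exact h1.div hu hu0
    have hev : (fun y : ℂ => ((fun τ : ℍ => valM τ F) ∘ ofComplex) y)
        =ᶠ[𝓝 z] fun y : ℂ => (y - z) ^ (l - k) * w y / u y := by
      have hune : ∀ᶠ y in 𝓝 z, u y ≠ 0 := hu.continuousAt.eventually_ne hu0
      filter_upwards [isOpen_upperHalfPlaneSet.mem_nhds hz', hbu, haw, hune]
        with y hy e1 e2 e3
      have hy' : 0 < y.im := hy
      simp only [Function.comp_apply]
      rw [ofComplex_apply_of_im_pos hy']
      simp only [Function.comp_apply, smul_eq_mul] at e1 e2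
      rw [ofComplex_apply_of_im_pos hy'] at e1 e2
      by_cases hyz : y = z
      · subst hyz
        -- at the centre: compare Taylor coefficients of index k
        have hbk : taylorCoeff τ₀ (b : ℍ → ℂ) k = u y := by
          rw [taylorCoeff_eq_germCoeff]
          refine germCoeff_of_eventuallyEq hu ?_
          filter_upwards [hbu] with x hx
          rw [hx, smul_eq_mul]
        have hak : taylorCoeff τ₀ (a : ℍ → ℂ) k = (y - y) ^ (l - k) * w y := by
          rcases Nat.eq_or_lt_of_le hkl with hkl' | hkl'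
          · subst hkl'
            rw [taylorCoeff_eq_germCoeff]
            rw [Nat.sub_self, pow_zero, one_mul]
            refine germCoeff_of_eventuallyEq hw ?_
            filter_upwards [haw] with x hx
            rw [hx, smul_eq_mul]
          · have hpos : l - k ≠ 0 := by omega
            rw [sub_self, zero_pow hpos, zero_mul]
            have := order_taylorAt τ₀ a
            rw [← hl] at this
            have h3 : PowerSeries.coeff k (taylorAt τ₀ a) = 0 := by
              apply PowerSeries.coeff_of_lt_order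
              rw [this]
              exact_mod_cast hkl'
            rwa [coeff_taylorAt] at h3
        have hrel := valM_mul_taylorCoeff hF (h τ₀) hk.symm
        rw [hbk, hak] at hrel
        rw [eq_div_iff e3]
        exact hrel
      · have hyz' : y - z ≠ 0 := sub_ne_zero.mpr hyz
        have hrel := hval ⟨y, hy'⟩
        rw [e1, e2] at hrel
        rw [eq_div_iff e3]
        have hpow : (y - z) ^ l = (y - z) ^ (l - k) * (y - z) ^ k := by
          rw [← pow_add, Nat.sub_add_cancel hkl]
        rw [hpow] at hrel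
        have hk0 : (y - z) ^ k ≠ 0 := pow_ne_zero _ hyz'
        apply mul_right_cancel₀ hk0
        linear_combination hrel
    exact (hH.congr hev.symm).differentiableAt.differentiableWithinAt
  refine ⟨⟨fun τ : ℍ => valM τ F, hmd⟩, ?_⟩
  rw [eq_div_iff hbK, ← map_mul]
  congr 1
  ext τ
  exact hval τ

theorem valM_eq_of_algebraMap_eq {F : MerH} {f : holoRing}
    (hf : algebraMap holoRing MerH f = F) (τ : ℍ) : valM τ F = (f : ℍ → ℂ) τ := by
  rw [← hf, valM_algebraMap]

end Fermat.Agent.S24.H624
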